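/-
GATE-B / B5 leaf (helper65): integer `2 × 2` matrices of nonzero determinant as elements of
`GL (Fin 2) ℝ`, for weight-two slash computations.

* `glOf a b c d : GL (Fin 2) ℝ` (`= 1` if the determinant vanishes), `val_glOf`, `det_glOf`;
* `glOf_mul_glOf` : the product formula;
* `slash_scalar` : scalar matrices act trivially in weight `2`; `slash_glOf_scale`;
* `smul_slash_glOf` : `(c • f) ∣[2] γ = c • f ∣[2] γ` for positive determinant.
-/
import Mathlib

set_option autoImplicit false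

noncomputable section

namespace Fermat.Agent.GB.B5

open scoped MatrixGroups ModularForm
open UpperHalfPlane

/-- the integer matrix `[a b; c d]` in `GL₂(ℝ)` (junk value `1` when `ad - bc = 0`) -/
def glOf (a b c d : ℤ) : GL (Fin 2) ℝ :=
  if h : a * d - b * c ≠ 0 then
    Matrix.GeneralLinearGroup.mkOfDetNeZero !![(a : ℝ), (b : ℝ); (c : ℝ), (d : ℝ)]
      (by rw [Matrix.det_fin_two_of]; exact_mod_cast h)
  else 1

theorem val_glOf {a b c d : ℤ} (h : a * d - b * c ≠ 0) :
    ((glOf a b c d : GL (Fin 2) ℝ) : Matrix (Fin 2) (Fin 2) ℝ) =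
      !![(a : ℝ), (b : ℝ); (c : ℝ), (d : ℝ)] := by
  rw [glOf, dif_pos h]
  rfl

theorem det_glOf {a b c d : ℤ} (h : a * d - b * c ≠ 0) :
    ((glOf a b c d).det : ℝ) = ((a * d - b * c : ℤ) : ℝ) := by
  rw [Matrix.GeneralLinearGroup.val_det_apply, val_glOf h, Matrix.det_fin_two_of]
  push_cast
  ring

theorem glOf_mul_glOf {a b c d a' b' c' d' : ℤ} (h : a * d - b * c ≠ 0)
    (h' : a' * d' - b' * c' ≠ 0) :
    glOf a b c d * glOf a' b' c' d' =
      glOf (a * a' + b * c') (a * b' + b * d') (c * a' + d * c') (c * b' + d * d') := by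
  have h'' : (a * a' + b * c') * (c * b' + d * d') - (a * b' + b * d') * (c * a' + d * c') ≠ 0 := by
    have : (a * a' + b * c') * (c * b' + d * d') - (a * b' + b * d') * (c * a' + d * c') =
        (a * d - b * c) * (a' * d' - b' * c') := by ring
    rw [this]
    exact mul_ne_zero h h'
  apply Matrix.GeneralLinearGroup.ext
  intro i j
  rw [Matrix.GeneralLinearGroup.coe_mul, val_glOf h, val_glOf h', val_glOf h'']
  fin_cases i <;> fin_cases j <;> simp [Matrix.mul_apply, Fin.sum_univ_two]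

theorem glOf_eq_of_eq {a b c d a' b' c' d' : ℤ} (ha : a = a') (hb : b = b') (hc : c = c')
    (hd : d = d') : glOf a b c d = glOf a' b' c' d' := by
  subst ha hb hc hd
  rfl

theorem σ_glOf_of_pos {a b c d : ℤ} (h : 0 < a * d - b * c) :
    UpperHalfPlane.σ (glOf a b c d) = .refl ℝ ℂ := by
  have h0 : a * d - b * c ≠ 0 := ne_of_gt h
  rw [UpperHalfPlane.σ, if_pos]
  rw [det_glOf h0]
  exact_mod_cast h

/-- scalar multiplication commutes with the slash by a matrix of positive determinant -/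
theorem smul_slash_glOf (k : ℤ) {a b c d : ℤ} (h : 0 < a * d - b * c) (x : ℂ) (f : ℍ → ℂ) :
    (x • f) ∣[k] glOf a b c d = x • f ∣[k] glOf a b c d := by
  rw [ModularForm.smul_slash, σ_glOf_of_pos h]
  rfl

/-- scalar matrices act trivially in weight two -/
theorem slash_scalar {r : ℤ} (hr : r ≠ 0) (f : ℍ → ℂ) : f ∣[(2 : ℤ)] glOf r 0 0 r = f := by
  have h0 : r * r - 0 * 0 ≠ 0 := by simpa using mul_ne_zero hr hr
  have hpos : 0 < r * r - 0 * 0 := by
    have := mul_self_pos.mpr hr
    linarith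
  have hr' : (r : ℂ) ≠ 0 := by exact_mod_cast hr
  ext τ
  rw [ModularForm.slash_apply, σ_glOf_of_pos hpos, det_glOf h0]
  have hsm : glOf r 0 0 r • τ = τ := by
    apply UpperHalfPlane.ext
    rw [UpperHalfPlane.coe_smul_of_det_pos (by rw [det_glOf h0]; exact_mod_cast hpos)]
    simp only [UpperHalfPlane.num, UpperHalfPlane.denom, val_glOf h0]
    simp
    field_simp
  have hden : UpperHalfPlane.denom (glOf r 0 0 r) τ = (r : ℂ) := by
    simp [UpperHalfPlane.denom, val_glOf h0]
  rw [hsm, hden]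
  simp only [ContinuousAlgEquiv.refl_apply]
  have habs : ((|((r * r - 0 * 0 : ℤ) : ℝ)| : ℝ) : ℂ) = (r : ℂ) * (r : ℂ) := by
    have : |((r * r - 0 * 0 : ℤ) : ℝ)| = (r : ℝ) * (r : ℝ) := by
      push_cast
      rw [sub_zero, abs_mul_self]
    rw [this]
    push_cast
    rfl
  rw [habs]
  have : ((r : ℂ) * (r : ℂ)) ^ ((2 : ℤ) - 1) * (r : ℂ) ^ (-(2 : ℤ)) = 1 := by
    rw [show (2 : ℤ) - 1 = 1 by norm_num, zpow_one, zpow_neg, zpow_two]
    field_simp
  rw [mul_assoc, this, mul_one]

/-- rescaling all entries does not change the weight-two slash -/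
theorem slash_glOf_scale {r a b c d : ℤ} (hr : r ≠ 0) (h : a * d - b * c ≠ 0) (f : ℍ → ℂ) :
    f ∣[(2 : ℤ)] glOf (r * a) (r * b) (r * c) (r * d) = f ∣[(2 : ℤ)] glOf a b c d := by
  have h0 : r * r - 0 * 0 ≠ 0 := by simpa using mul_ne_zero hr hr
  have e : glOf (r * a) (r * b) (r * c) (r * d) = glOf r 0 0 r * glOf a b c d := by
    rw [glOf_mul_glOf h0 h]
    apply glOf_eq_of_eq <;> ring
  rw [e, SlashAction.slash_mul, slash_scalar hr]

end Fermat.Agent.GB.B5

end
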