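/-
GATE-B / B5 leaf (helper65): identity (T1) — the trace from level `N r²` to level `N r` of the
twist of a `Γ₀(N r)`-invariant weight-two function by a nontrivial character mod `r` vanishes.

Everything is a statement about functions `H : ℍ → ℂ` and the Mathlib weight-two slash action of
`GL (Fin 2) ℝ`; no modular-form structures are involved.

* `Gamma0Inv M H` : `H ∣[2] γ = H` for all integer matrices `γ = [a b; c d]`, `ad - bc = 1`,
  `M ∣ c`;
* `slash_generic`, `slash_exceptional` : the two coset computations;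
* `twist_trace_eq_zero` : (T1), sums over `ZMod r`;
* `twist_trace_range_eq_zero` : (T1), sums over `Finset.range r`.
-/
import Fermat.Agent.GB.B5.GLInt

set_option autoImplicit false

noncomputable section

namespace Fermat.Agent.GB.B5

open scoped MatrixGroups ModularForm
open UpperHalfPlane

/-- weight-two invariance under `Γ₀(M)`, spelled out on integer matrices -/
def Gamma0Inv (M : ℤ) (H : ℍ → ℂ) : Prop :=
  ∀ a b c d : ℤ, a * d - b * c = 1 → M ∣ c → H ∣[(2 : ℤ)] glOf a b c d = H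

theorem Gamma0Inv.slash_mul {M : ℤ} {H : ℍ → ℂ} (hH : Gamma0Inv M H) {a b c d : ℤ}
    (hdet : a * d - b * c = 1) (hc : M ∣ c) (γ : GL (Fin 2) ℝ) :
    H ∣[(2 : ℤ)] (glOf a b c d * γ) = H ∣[(2 : ℤ)] γ := by
  rw [SlashAction.slash_mul, hH a b c d hdet hc]

theorem Gamma0Inv.mono {M M' : ℤ} {H : ℍ → ℂ} (hH : Gamma0Inv M H) (h : M ∣ M') :
    Gamma0Inv M' H :=
  fun a b c d hdet hc => hH a b c d hdet (h.trans hc)

/-- the product `[r u; 0 r] [1 0; N r j 1]` -/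
theorem glOf_mul_lower {r : ℤ} (hr : r ≠ 0) (N u j : ℤ) :
    glOf r u 0 r * glOf 1 0 (N * r * j) 1 = glOf (r + u * N * r * j) u (N * r * r * j) r := by
  have h1 : r * r - u * 0 ≠ 0 := by simpa using mul_ne_zero hr hr
  have h2 : (1 : ℤ) * 1 - 0 * (N * r * j) ≠ 0 := by norm_num
  rw [glOf_mul_glOf h1 h2]
  apply glOf_eq_of_eq <;> ring

theorem det_lower {r : ℤ} (hr : r ≠ 0) (N u j : ℤ) :
    (r + u * N * r * j) * r - u * (N * r * r * j) ≠ 0 := by
  have : (r + u * N * r * j) * r - u * (N * r * r * j) = r * r := by ring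
  rw [this]
  exact mul_ne_zero hr hr

/-- periodicity of `v ↦ H ∣[2] [r v; 0 r]` -/
theorem slash_upper_add {r N : ℤ} (hr : r ≠ 0) {H : ℍ → ℂ} (hH : Gamma0Inv (N * r) H)
    (v k : ℤ) : H ∣[(2 : ℤ)] glOf r (v + r * k) 0 r = H ∣[(2 : ℤ)] glOf r v 0 r := by
  have h1 : r * r - v * 0 ≠ 0 := by simpa using mul_ne_zero hr hr
  have h2 : (1 : ℤ) * 1 - k * 0 ≠ 0 := by norm_num
  have e : glOf r (v + r * k) 0 r = glOf 1 k 0 1 * glOf r v 0 r := by
    rw [glOf_mul_glOf h2 h1]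
    apply glOf_eq_of_eq <;> ring
  rw [e, hH.slash_mul (by ring) (dvd_zero _)]

/-- generic cosets: if `u - u' (1 + u N j) = r e` then `[r u; 0 r] [1 0; N r j 1]` and
`[r u'; 0 r]` differ by an element of `Γ₀(N r)` -/
theorem slash_generic {r N : ℤ} (hr : r ≠ 0) {H : ℍ → ℂ} (hH : Gamma0Inv (N * r) H)
    {u j u' e : ℤ} (h : u - u' * (1 + u * N * j) = r * e) :
    (H ∣[(2 : ℤ)] glOf r u 0 r) ∣[(2 : ℤ)] glOf 1 0 (N * r * j) 1 =
      H ∣[(2 : ℤ)] glOf r u' 0 r := by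
  have h1 : r * r - u' * 0 ≠ 0 := by simpa using mul_ne_zero hr hr
  have hδ : (1 + u * N * j) * (1 - u' * N * j) - e * (N * r * j) = 1 := by
    linear_combination (N * j) * h
  have hδ' : (1 + u * N * j) * (1 - u' * N * j) - e * (N * r * j) ≠ 0 := by
    rw [hδ]; norm_num
  have e1 : glOf (r + u * N * r * j) u (N * r * r * j) r =
      glOf (1 + u * N * j) e (N * r * j) (1 - u' * N * j) * glOf r u' 0 r := by
    rw [glOf_mul_glOf hδ' h1]
    apply glOf_eq_of_eq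
    · ring
    · linear_combination h
    · ring
    · ring
  rw [← SlashAction.slash_mul, glOf_mul_lower hr, e1,
    hH.slash_mul hδ (Dvd.intro _ rfl)]

/-- exceptional cosets: all pairs `(u, j)` with `r ∣ 1 + u N j` give the same function -/
theorem slash_exceptional {r N : ℤ} (hr : r ≠ 0) {H : ℍ → ℂ} (hH : Gamma0Inv (N * r) H)
    {u j m u0 j0 m0 : ℤ} (h : 1 + u * N * j = r * m) (h0 : 1 + u0 * N * j0 = r * m0) :
    (H ∣[(2 : ℤ)] glOf r u 0 r) ∣[(2 : ℤ)] glOf 1 0 (N * r * j) 1 =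
      (H ∣[(2 : ℤ)] glOf r u0 0 r) ∣[(2 : ℤ)] glOf 1 0 (N * r * j0) 1 := by
  have hδ : (r * m - u * N * j0) * (r * m0 - N * j * u0) -
      (u * m0 - m * u0) * (N * r * (j - j0)) = 1 := by
    linear_combination (-(r * m0 - N * j0 * u0)) * h - h0
  have hδ' : (r * m - u * N * j0) * (r * m0 - N * j * u0) -
      (u * m0 - m * u0) * (N * r * (j - j0)) ≠ 0 := by
    rw [hδ]; norm_num
  have e1 : glOf (r + u * N * r * j) u (N * r * r * j) r =
      glOf (r * m - u * N * j0) (u * m0 - m * u0) (N * r * (j - j0)) (r * m0 - N * j * u0) *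
        glOf (r + u0 * N * r * j0) u0 (N * r * r * j0) r := by
    rw [glOf_mul_glOf hδ' (det_lower hr N u0 j0)]
    apply glOf_eq_of_eq
    · linear_combination (r) * h + (r * u * N * j0) * h0
    · linear_combination (u) * h0
    · linear_combination (N * r * r * j0) * h0
    · linear_combination (r) * h0
  rw [← SlashAction.slash_mul, ← SlashAction.slash_mul, glOf_mul_lower hr, glOf_mul_lower hr, e1,
    hH.slash_mul hδ (Dvd.intro _ rfl)]


/-! ### Residue classes -/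

section ZModLevel

variable {r : ℕ} [Fact r.Prime]

theorem prime_intCast_ne_zero : ((r : ℕ) : ℤ) ≠ 0 := by
  exact_mod_cast (Fact.out : r.Prime).ne_zero

/-- `H ∣[2] [r v; 0 r]` only depends on `v` modulo `r` -/
theorem slash_upper_eq_val {N : ℕ} {H : ℍ → ℂ} (hH : Gamma0Inv ((N : ℤ) * (r : ℤ)) H) (v : ℤ) :
    H ∣[(2 : ℤ)] glOf r v 0 r = H ∣[(2 : ℤ)] glOf r (((v : ZMod r).val : ℕ) : ℤ) 0 r := by
  have : NeZero r := ⟨(Fact.out : r.Prime).ne_zero⟩
  have h1 : (((((v : ZMod r).val : ℕ) : ℤ) : ZMod r)) = ((v : ℤ) : ZMod r) := by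
    rw [Int.cast_natCast, ZMod.natCast_zmod_val]
  obtain ⟨k, hk⟩ := (ZMod.intCast_eq_intCast_iff_dvd_sub _ _ _).mp h1
  have : v = (((v : ZMod r).val : ℕ) : ℤ) + (r : ℤ) * k := by linarith
  conv_lhs => rw [this]
  exact slash_upper_add prime_intCast_ne_zero hH _ _

/-- the functions `H ∣[2] [r v; 0 r]`, `v` a residue class -/
def upperSlash (H : ℍ → ℂ) (v : ZMod r) : ℍ → ℂ :=
  H ∣[(2 : ℤ)] glOf r ((v.val : ℕ) : ℤ) 0 r

/-- the functions `H ∣[2] [r u; 0 r] ∣[2] [1 0; N r j 1]`, `u`, `j` residue classes -/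
def upperLowerSlash (N : ℕ) (H : ℍ → ℂ) (u j : ZMod r) : ℍ → ℂ :=
  (H ∣[(2 : ℤ)] glOf r ((u.val : ℕ) : ℤ) 0 r) ∣[(2 : ℤ)]
    glOf 1 0 ((N : ℤ) * (r : ℤ) * ((j.val : ℕ) : ℤ)) 1

theorem upperLowerSlash_generic {N : ℕ} {H : ℍ → ℂ} (hH : Gamma0Inv ((N : ℤ) * (r : ℤ)) H)
    (u j : ZMod r) (hx : 1 + u * (N : ZMod r) * j ≠ 0) :
    upperLowerSlash N H u j = upperSlash H (u / (1 + u * (N : ZMod r) * j)) := by
  have : NeZero r := ⟨(Fact.out : r.Prime).ne_zero⟩
  set v : ZMod r := u / (1 + u * (N : ZMod r) * j) with hv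
  have hz : (((((u.val : ℕ) : ℤ) - ((v.val : ℕ) : ℤ) *
      (1 + ((u.val : ℕ) : ℤ) * (N : ℤ) * ((j.val : ℕ) : ℤ)) : ℤ)) : ZMod r) = 0 := by
    push_cast
    rw [ZMod.natCast_zmod_val, ZMod.natCast_zmod_val, ZMod.natCast_zmod_val, hv]
    field_simp
    ring
  obtain ⟨e, he⟩ := (ZMod.intCast_zmod_eq_zero_iff_dvd _ _).mp hz
  exact slash_generic prime_intCast_ne_zero hH he

theorem upperLowerSlash_exceptional {N : ℕ} {H : ℍ → ℂ}
    (hH : Gamma0Inv ((N : ℤ) * (r : ℤ)) H) (u j u0 j0 : ZMod r)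
    (h : 1 + u * (N : ZMod r) * j = 0) (h0 : 1 + u0 * (N : ZMod r) * j0 = 0) :
    upperLowerSlash N H u j = upperLowerSlash N H u0 j0 := by
  have : NeZero r := ⟨(Fact.out : r.Prime).ne_zero⟩
  have key : ∀ u j : ZMod r, 1 + u * (N : ZMod r) * j = 0 →
      ∃ m : ℤ, 1 + ((u.val : ℕ) : ℤ) * (N : ℤ) * ((j.val : ℕ) : ℤ) = (r : ℤ) * m := by
    intro u j h
    have hz : (((1 + ((u.val : ℕ) : ℤ) * (N : ℤ) * ((j.val : ℕ) : ℤ) : ℤ)) : ZMod r) = 0 := by
      push_cast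
      rw [ZMod.natCast_zmod_val, ZMod.natCast_zmod_val]
      exact h
    exact (ZMod.intCast_zmod_eq_zero_iff_dvd _ _).mp hz
  obtain ⟨m, hm⟩ := key u j h
  obtain ⟨m0, hm0⟩ := key u0 j0 h0
  exact slash_exceptional prime_intCast_ne_zero hH hm hm0

/-- **(T1)**: for `r` prime not dividing `N`, a `Γ₀(N r)`-invariant weight-two function `H` and a
nontrivial multiplicative character `χ` of `ZMod r`, the twist `∑_u χ(u) • H ∣[2] [r u; 0 r]` has
vanishing trace `∑_j · ∣[2] [1 0; N r j 1]`. -/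
theorem twist_trace_eq_zero {N : ℕ} (hrN : ¬ r ∣ N) {H : ℍ → ℂ}
    (hH : Gamma0Inv ((N : ℤ) * (r : ℤ)) H) (χ : MulChar (ZMod r) ℂ) (hχ : χ ≠ 1) :
    ∑ j : ZMod r, (∑ u : ZMod r, χ u • H ∣[(2 : ℤ)] glOf r ((u.val : ℕ) : ℤ) 0 r) ∣[(2 : ℤ)]
      glOf 1 0 ((N : ℤ) * (r : ℤ) * ((j.val : ℕ) : ℤ)) 1 = 0 := by
  have hN : (N : ZMod r) ≠ 0 := by
    rw [Ne, ZMod.natCast_eq_zero_iff]
    exact hrN
  have hsum : ∑ a : ZMod r, χ a = 0 := MulChar.sum_eq_zero_of_ne_one hχ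
  -- step 1: expand
  have step1 : ∀ j : ZMod r,
      (∑ u : ZMod r, χ u • H ∣[(2 : ℤ)] glOf r ((u.val : ℕ) : ℤ) 0 r) ∣[(2 : ℤ)]
        glOf 1 0 ((N : ℤ) * (r : ℤ) * ((j.val : ℕ) : ℤ)) 1 =
      ∑ u : ZMod r, χ u • upperLowerSlash N H u j := by
    intro j
    rw [SlashAction.sum_slash]
    refine Finset.sum_congr rfl fun u _ => ?_
    rw [smul_slash_glOf (2 : ℤ) (by norm_num)]
    rfl
  simp_rw [step1]
  rw [Finset.sum_comm]
  -- the exceptional value
  set E : ℍ → ℂ := upperLowerSlash N H 1 (-(N : ZMod r)⁻¹) with hE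
  set T : ℍ → ℂ := ∑ v : ZMod r, χ v • upperSlash H v with hT
  -- step 2: for each `u`, reindex `j ↦ x = 1 + u N j`
  have step2 : ∀ u : ZMod r, ∑ j : ZMod r, χ u • upperLowerSlash N H u j =
      ∑ x : ZMod r, χ u • (if x = 0 then E else upperSlash H (u / x)) := by
    intro u
    by_cases hu : u = 0
    · subst hu
      simp [MulChar.map_zero]
    · have huN : u * (N : ZMod r) ≠ 0 := mul_ne_zero hu hN
      refine Fintype.sum_equiv ((Equiv.mulLeft₀ (u * (N : ZMod r)) huN).trans (Equiv.addLeft 1))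
        _ _ fun j => ?_
      have hσ : ((Equiv.mulLeft₀ (u * (N : ZMod r)) huN).trans (Equiv.addLeft 1)) j =
          1 + u * (N : ZMod r) * j := rfl
      rw [hσ]
      by_cases hx : 1 + u * (N : ZMod r) * j = 0
      · rw [if_pos hx]
        congr 1
        refine upperLowerSlash_exceptional hH u j 1 (-(N : ZMod r)⁻¹) hx ?_
        field_simp
        ring
      · rw [if_neg hx, upperLowerSlash_generic hH u j hx]
  simp_rw [step2]
  rw [Finset.sum_comm]
  -- step 3: for each `x`, the sum over `u` is `χ x • T`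
  have step3 : ∀ x : ZMod r,
      ∑ u : ZMod r, χ u • (if x = 0 then E else upperSlash H (u / x)) = χ x • T := by
    intro x
    by_cases hx : x = 0
    · subst hx
      simp only [if_true, MulChar.map_zero, zero_smul]
      rw [← Finset.sum_smul, hsum, zero_smul]
    · simp only [if_neg hx]
      rw [hT, Finset.smul_sum]
      symm
      refine Fintype.sum_equiv (Equiv.mulRight₀ x hx) _ _ fun v => ?_
      have hσ : (Equiv.mulRight₀ x hx) v = v * x := rfl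
      rw [hσ, map_mul, mul_div_cancel_right₀ v hx, smul_smul, mul_comm]
  simp_rw [step3]
  rw [← Finset.sum_smul, hsum, zero_smul]


/-- sums over `ZMod r` of functions of the canonical representative are sums over `range r` -/
theorem sum_zmod_val_eq_sum_range {M : Type*} [AddCommMonoid M] (f : ℕ → M) :
    ∑ u : ZMod r, f u.val = ∑ n ∈ Finset.range r, f n := by
  have : NeZero r := ⟨(Fact.out : r.Prime).ne_zero⟩
  refine Finset.sum_nbij' (fun u => u.val) (fun n => (n : ZMod r)) ?_ ?_ ?_ ?_ ?_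
  · intro u _
    exact Finset.mem_range.mpr (ZMod.val_lt u)
  · intro n _
    exact Finset.mem_univ _
  · intro u _
    exact ZMod.natCast_zmod_val u
  · intro n hn
    exact ZMod.val_natCast_of_lt (Finset.mem_range.mp hn)
  · intro u _
    rfl

/-- **(T1)**, sums over `Finset.range r`; the character is evaluated at the residue class. -/
theorem twist_trace_range_eq_zero {N : ℕ} (hrN : ¬ r ∣ N) {H : ℍ → ℂ}
    (hH : Gamma0Inv ((N : ℤ) * (r : ℤ)) H) (χ : MulChar (ZMod r) ℂ) (hχ : χ ≠ 1) :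
    ∑ j ∈ Finset.range r, (∑ u ∈ Finset.range r,
        χ (u : ZMod r) • H ∣[(2 : ℤ)] glOf r (u : ℤ) 0 r) ∣[(2 : ℤ)]
      glOf 1 0 ((N : ℤ) * (r : ℤ) * (j : ℤ)) 1 = 0 := by
  have : NeZero r := ⟨(Fact.out : r.Prime).ne_zero⟩
  have h := twist_trace_eq_zero hrN hH χ hχ
  have h1 : (∑ u : ZMod r, χ u • H ∣[(2 : ℤ)] glOf r ((u.val : ℕ) : ℤ) 0 r) =
      ∑ u ∈ Finset.range r, χ (u : ZMod r) • H ∣[(2 : ℤ)] glOf r (u : ℤ) 0 r := by
    rw [← sum_zmod_val_eq_sum_range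
      (fun n : ℕ => χ (n : ZMod r) • H ∣[(2 : ℤ)] glOf r (n : ℤ) 0 r)]
    refine Finset.sum_congr rfl fun u _ => ?_
    rw [ZMod.natCast_zmod_val]
  rw [h1] at h
  rw [← sum_zmod_val_eq_sum_range (fun n : ℕ =>
    (∑ u ∈ Finset.range r, χ (u : ZMod r) • H ∣[(2 : ℤ)] glOf r (u : ℤ) 0 r) ∣[(2 : ℤ)]
      glOf 1 0 ((N : ℤ) * (r : ℤ) * (n : ℤ)) 1)]
  exact h

end ZModLevel

end Fermat.Agent.GB.B5

end
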