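/-
GATE-B / B5 leaf (helper65): identity (T2) — for a weight-two function `g` on which `Γ₀(N r)`
acts through a nontrivial character `χ` of `(ℤ/r)ˣ` (`r` prime, `r ∤ N`),
`∑_b ∑_j g ∣[2] [r 0; 0 1] ∣[2] [1 0; N r j 1] ∣[2] [1 b; 0 r] = r • g`
(`U_r ∘ Tr ∘ B_r = r`, up to the normalisation of `U_r`).

Everything is a statement about functions `g : ℍ → ℂ` and the Mathlib weight-two slash action of
`GL (Fin 2) ℝ`; no modular-form structures are involved.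

* `Gamma0Char N r χ g` : `g ∣[2] γ = χ(d) • g` for `γ = [a b; c d]`, `ad - bc = 1`, `N r ∣ c`,
  `N ∣ d - 1`;
* `slash_gammaPrime` : the coset computation;
* `raise_trace_lower_eq` : (T2), sums over `ZMod r`;
* `raise_trace_lower_range_eq` : (T2), sums over `Finset.range r`.
-/
import Fermat.Agent.GB.B5.CosetsT1

set_option autoImplicit false

noncomputable section

namespace Fermat.Agent.GB.B5

open scoped MatrixGroups ModularForm
open UpperHalfPlane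

/-- `Γ₀(N r)` acts on `g` (weight two) through the character `χ` of `ZMod r`, tested on the
matrices whose lower right entry is `≡ 1 mod N` -/
def Gamma0Char (N r : ℕ) (χ : MulChar (ZMod r) ℂ) (g : ℍ → ℂ) : Prop :=
  ∀ a b c d : ℤ, a * d - b * c = 1 → ((N : ℤ) * (r : ℤ)) ∣ c → (N : ℤ) ∣ d - 1 →
    g ∣[(2 : ℤ)] glOf a b c d = χ ((d : ℤ) : ZMod r) • g

/-- the triple product `[r 0; 0 1] [1 0; N r j 1] [1 b; 0 r] = r [1 b; N j, 1 + N j b]` -/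
theorem triple_mul {r : ℤ} (hr : r ≠ 0) (N j b : ℤ) :
    glOf r 0 0 1 * glOf 1 0 (N * r * j) 1 * glOf 1 b 0 r =
      glOf (r * 1) (r * b) (r * (N * j)) (r * (1 + N * j * b)) := by
  have h1 : r * 1 - 0 * 0 ≠ 0 := by simpa using hr
  have h2 : (1 : ℤ) * 1 - 0 * (N * r * j) ≠ 0 := by norm_num
  have h3 : (1 : ℤ) * r - b * 0 ≠ 0 := by simpa using hr
  have h4 : (r * 1 + 0 * (N * r * j)) * (0 * 0 + 1 * 1) -
      (r * 0 + 0 * 1) * (0 * 1 + 1 * (N * r * j)) ≠ 0 := by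
    have : (r * 1 + 0 * (N * r * j)) * (0 * 0 + 1 * 1) -
      (r * 0 + 0 * 1) * (0 * 1 + 1 * (N * r * j)) = r := by ring
    rw [this]; exact hr
  rw [glOf_mul_glOf h1 h2, glOf_mul_glOf h4 h3]
  apply glOf_eq_of_eq <;> ring

theorem det_gammaPrime (N j b : ℤ) : (1 : ℤ) * (1 + N * j * b) - b * (N * j) = 1 := by ring

/-- the weight-two slash by the triple product is the slash by `[1 b; N j, 1 + N j b]` -/
theorem slash_triple {r : ℤ} (hr : r ≠ 0) (N j b : ℤ) (g : ℍ → ℂ) :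
    ((g ∣[(2 : ℤ)] glOf r 0 0 1) ∣[(2 : ℤ)] glOf 1 0 (N * r * j) 1) ∣[(2 : ℤ)] glOf 1 b 0 r =
      g ∣[(2 : ℤ)] glOf 1 b (N * j) (1 + N * j * b) := by
  rw [← SlashAction.slash_mul, ← SlashAction.slash_mul, ← mul_assoc, triple_mul hr,
    slash_glOf_scale hr (by rw [det_gammaPrime]; norm_num)]

/-- coset computation: if `(j - j0) + N j j0 (b0 - b) = r e`, then `[1 b; N j, 1 + N j b]` and
`[1 b0; N j0, 1 + N j0 b0]` differ by an element of `Γ₀(N r)` with lower right entry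
`1 + N j (b - b0)` -/
theorem slash_gammaPrime {N r : ℕ} {χ : MulChar (ZMod r) ℂ} {g : ℍ → ℂ}
    (hg : Gamma0Char N r χ g) {j b j0 b0 e : ℤ}
    (h : (j - j0) + (N : ℤ) * j * j0 * (b0 - b) = (r : ℤ) * e) :
    g ∣[(2 : ℤ)] glOf 1 b ((N : ℤ) * j) (1 + (N : ℤ) * j * b) =
      χ (((1 + (N : ℤ) * j * (b - b0) : ℤ)) : ZMod r) •
        g ∣[(2 : ℤ)] glOf 1 b0 ((N : ℤ) * j0) (1 + (N : ℤ) * j0 * b0) := by
  have hδ : (1 + (N : ℤ) * j0 * (b0 - b)) * (1 + (N : ℤ) * j * (b - b0)) -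
      (b - b0) * ((N : ℤ) * (r : ℤ) * e) = 1 := by
    linear_combination ((N : ℤ) * (b - b0)) * h
  have hδ' : (1 + (N : ℤ) * j0 * (b0 - b)) * (1 + (N : ℤ) * j * (b - b0)) -
      (b - b0) * ((N : ℤ) * (r : ℤ) * e) ≠ 0 := by
    rw [hδ]; norm_num
  have h0 : (1 : ℤ) * (1 + (N : ℤ) * j0 * b0) - b0 * ((N : ℤ) * j0) ≠ 0 := by
    rw [det_gammaPrime]; norm_num
  have e1 : glOf 1 b ((N : ℤ) * j) (1 + (N : ℤ) * j * b) =
      glOf (1 + (N : ℤ) * j0 * (b0 - b)) (b - b0) ((N : ℤ) * (r : ℤ) * e)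
          (1 + (N : ℤ) * j * (b - b0)) *
        glOf 1 b0 ((N : ℤ) * j0) (1 + (N : ℤ) * j0 * b0) := by
    rw [glOf_mul_glOf hδ' h0]
    apply glOf_eq_of_eq
    · ring
    · ring
    · linear_combination ((N : ℤ)) * h
    · linear_combination ((N : ℤ) * b0) * h
  rw [e1, SlashAction.slash_mul, hg _ _ _ _ hδ (Dvd.intro _ rfl) ⟨j * (b - b0), by ring⟩,
    smul_slash_glOf (2 : ℤ) (by rw [det_gammaPrime]; norm_num)]


/-! ### Residue classes -/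

section ZModLevel

variable {r : ℕ} [Fact r.Prime]

/-- the functions `g ∣[2] [1 b; N j, 1 + N j b]`, `j`, `b` residue classes -/
def gammaPrimeSlash (N : ℕ) (g : ℍ → ℂ) (j b : ZMod r) : ℍ → ℂ :=
  g ∣[(2 : ℤ)] glOf 1 ((b.val : ℕ) : ℤ) ((N : ℤ) * ((j.val : ℕ) : ℤ))
    (1 + (N : ℤ) * ((j.val : ℕ) : ℤ) * ((b.val : ℕ) : ℤ))

theorem gammaPrimeSlash_zero {N : ℕ} {χ : MulChar (ZMod r) ℂ} {g : ℍ → ℂ}
    (hg : Gamma0Char N r χ g) (b : ZMod r) : gammaPrimeSlash N g 0 b = g := by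
  have e : glOf 1 ((b.val : ℕ) : ℤ) ((N : ℤ) * (((0 : ZMod r).val : ℕ) : ℤ))
      (1 + (N : ℤ) * (((0 : ZMod r).val : ℕ) : ℤ) * ((b.val : ℕ) : ℤ)) =
      glOf 1 ((b.val : ℕ) : ℤ) 0 1 := by
    apply glOf_eq_of_eq <;> simp [ZMod.val_zero]
  rw [gammaPrimeSlash, e, hg 1 _ 0 1 (by ring) (dvd_zero _) (by simp)]
  simp

theorem gammaPrimeSlash_of_ne_zero {N : ℕ} (hrN : ¬ r ∣ N) {χ : MulChar (ZMod r) ℂ}
    {g : ℍ → ℂ} (hg : Gamma0Char N r χ g) {j : ZMod r} (hj : j ≠ 0) (b : ZMod r) :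
    gammaPrimeSlash N g j b =
      χ j • gammaPrimeSlash N g 1 (b - (j - 1) / ((N : ZMod r) * j)) := by
  have : NeZero r := ⟨(Fact.out : r.Prime).ne_zero⟩
  have hN : (N : ZMod r) ≠ 0 := by
    rw [Ne, ZMod.natCast_eq_zero_iff]
    exact hrN
  set b0 : ZMod r := b - (j - 1) / ((N : ZMod r) * j) with hb0
  have hz : (((((j.val : ℕ) : ℤ) - (((1 : ZMod r).val : ℕ) : ℤ)) +
      (N : ℤ) * ((j.val : ℕ) : ℤ) * (((1 : ZMod r).val : ℕ) : ℤ) *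
        (((b0.val : ℕ) : ℤ) - ((b.val : ℕ) : ℤ)) : ℤ) : ZMod r) = 0 := by
    push_cast
    rw [ZMod.natCast_zmod_val, ZMod.natCast_zmod_val, ZMod.natCast_zmod_val,
      ZMod.natCast_zmod_val, hb0]
    field_simp
    ring
  obtain ⟨e, he⟩ := (ZMod.intCast_zmod_eq_zero_iff_dvd _ _).mp hz
  have hd : (((1 + (N : ℤ) * ((j.val : ℕ) : ℤ) * (((b.val : ℕ) : ℤ) - ((b0.val : ℕ) : ℤ)) : ℤ)) :
      ZMod r) = j := by
    push_cast
    rw [ZMod.natCast_zmod_val, ZMod.natCast_zmod_val, ZMod.natCast_zmod_val, hb0]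
    field_simp
    ring
  have := slash_gammaPrime hg he
  rw [hd] at this
  exact this

/-- **(T2)**: for `r` prime not dividing `N`, `χ` a nontrivial multiplicative character of
`ZMod r`, and `g` a weight-two function on which `Γ₀(N r)` acts through `χ`,
`∑_b ∑_j g ∣[2] [r 0; 0 1] ∣[2] [1 0; N r j 1] ∣[2] [1 b; 0 r] = r • g`. -/
theorem raise_trace_lower_eq {N : ℕ} (hrN : ¬ r ∣ N) {χ : MulChar (ZMod r) ℂ} (hχ : χ ≠ 1)
    {g : ℍ → ℂ} (hg : Gamma0Char N r χ g) :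
    ∑ b : ZMod r, ∑ j : ZMod r,
      ((g ∣[(2 : ℤ)] glOf r 0 0 1) ∣[(2 : ℤ)]
        glOf 1 0 ((N : ℤ) * (r : ℤ) * ((j.val : ℕ) : ℤ)) 1) ∣[(2 : ℤ)]
        glOf 1 ((b.val : ℕ) : ℤ) 0 r = (r : ℂ) • g := by
  have hsum : ∑ a : ZMod r, χ a = 0 := MulChar.sum_eq_zero_of_ne_one hχ
  have step1 : ∀ b j : ZMod r,
      ((g ∣[(2 : ℤ)] glOf r 0 0 1) ∣[(2 : ℤ)]
        glOf 1 0 ((N : ℤ) * (r : ℤ) * ((j.val : ℕ) : ℤ)) 1) ∣[(2 : ℤ)]
        glOf 1 ((b.val : ℕ) : ℤ) 0 r = gammaPrimeSlash N g j b := by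
    intro b j
    exact slash_triple prime_intCast_ne_zero _ _ _ g
  simp_rw [step1]
  rw [Finset.sum_comm]
  set T : ℍ → ℂ := ∑ b : ZMod r, gammaPrimeSlash N g 1 b with hT
  have step2 : ∀ j : ZMod r, ∑ b : ZMod r, gammaPrimeSlash N g j b =
      (if j = 0 then (r : ℂ) • g else 0) + χ j • T := by
    intro j
    by_cases hj : j = 0
    · subst hj
      simp only [gammaPrimeSlash_zero hg, if_true, MulChar.map_zero, zero_smul, add_zero]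
      rw [Finset.sum_const, Finset.card_univ, ZMod.card, Nat.cast_smul_eq_nsmul]
    · rw [if_neg hj, zero_add, hT, Finset.smul_sum]
      simp_rw [gammaPrimeSlash_of_ne_zero hrN hg hj]
      exact Fintype.sum_equiv (Equiv.subRight ((j - 1) / ((N : ZMod r) * j))) _ _ fun b => rfl
  simp_rw [step2]
  rw [Finset.sum_add_distrib, Finset.sum_ite_eq' Finset.univ (0 : ZMod r), if_pos (Finset.mem_univ _),
    ← Finset.sum_smul, hsum, zero_smul, add_zero]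

/-- **(T2)**, sums over `Finset.range r`. -/
theorem raise_trace_lower_range_eq {N : ℕ} (hrN : ¬ r ∣ N) {χ : MulChar (ZMod r) ℂ}
    (hχ : χ ≠ 1) {g : ℍ → ℂ} (hg : Gamma0Char N r χ g) :
    ∑ b ∈ Finset.range r, ∑ j ∈ Finset.range r,
      ((g ∣[(2 : ℤ)] glOf r 0 0 1) ∣[(2 : ℤ)]
        glOf 1 0 ((N : ℤ) * (r : ℤ) * (j : ℤ)) 1) ∣[(2 : ℤ)]
        glOf 1 (b : ℤ) 0 r = (r : ℂ) • g := by
  have h := raise_trace_lower_eq hrN hχ hg
  rw [← sum_zmod_val_eq_sum_range (fun b : ℕ => ∑ j ∈ Finset.range r,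
      ((g ∣[(2 : ℤ)] glOf r 0 0 1) ∣[(2 : ℤ)]
        glOf 1 0 ((N : ℤ) * (r : ℤ) * (j : ℤ)) 1) ∣[(2 : ℤ)]
        glOf 1 (b : ℤ) 0 r)]
  rw [← h]
  refine Finset.sum_congr rfl fun b _ => ?_
  exact (sum_zmod_val_eq_sum_range (fun j : ℕ =>
      ((g ∣[(2 : ℤ)] glOf r 0 0 1) ∣[(2 : ℤ)]
        glOf 1 0 ((N : ℤ) * (r : ℤ) * (j : ℤ)) 1) ∣[(2 : ℤ)]
        glOf 1 ((b.val : ℕ) : ℤ) 0 r)).symm

end ZModLevel

end Fermat.Agent.GB.B5

end
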