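/-
GATE-B / B5 leaf (helper65): adapters between the integer matrices `glOf a b c d` of `GLInt.lean`
and (i) `SL(2, ℤ)` / Mathlib's `CongruenceSubgroup.Gamma0`, (ii) the Prelude's `heckeMatrix`,
`heckeDiagMatrix`, `heckeU`.

* `mapGL_eq_glOf` : the image of `γ : SL(2, ℤ)` in `GL (Fin 2) ℝ` is `glOf γ₀₀ γ₀₁ γ₁₀ γ₁₁`;
* `gamma0Inv_iff` : `Gamma0Inv M H ↔ ∀ γ ∈ Γ₀(M), H ∣[2] γ = H`;
* `gamma0Inv_of_slashInvariant` : the case of (the underlying function of) a slash-invariant form;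
* `glOf_eq_heckeMatrix`, `glOf_eq_heckeDiagMatrix`;
* `heckeU_trace_raise_eq` : (T2) in the `heckeU`/`heckeDiagMatrix` spelling.
-/
import Fermat.Agent.GB.B5.CosetsT2
import Fermat.Prelude.Def_ModularForm_HeckeOperator

set_option autoImplicit false

noncomputable section

namespace Fermat.Agent.GB.B5

open scoped MatrixGroups ModularForm
open UpperHalfPlane Matrix.SpecialLinearGroup CongruenceSubgroup

/-- the image of `γ : SL(2, ℤ)` in `GL (Fin 2) ℝ` -/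
theorem mapGL_eq_glOf (γ : SL(2, ℤ)) :
    (mapGL ℝ γ : GL (Fin 2) ℝ) = glOf (γ 0 0) (γ 0 1) (γ 1 0) (γ 1 1) := by
  have hdet : γ 0 0 * γ 1 1 - γ 0 1 * γ 1 0 = 1 := by
    have := γ.det_coe
    rwa [Matrix.det_fin_two] at this
  have h0 : γ 0 0 * γ 1 1 - γ 0 1 * γ 1 0 ≠ 0 := by rw [hdet]; norm_num
  apply Matrix.GeneralLinearGroup.ext
  intro i j
  rw [val_glOf h0, mapGL_coe_matrix]
  fin_cases i <;> fin_cases j <;> simp

/-- an integer matrix of determinant one as an element of `SL(2, ℤ)` -/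
def slOf (a b c d : ℤ) (h : a * d - b * c = 1) : SL(2, ℤ) :=
  ⟨!![a, b; c, d], by rw [Matrix.det_fin_two_of]; exact h⟩

theorem mapGL_slOf (a b c d : ℤ) (h : a * d - b * c = 1) :
    (mapGL ℝ (slOf a b c d h) : GL (Fin 2) ℝ) = glOf a b c d := by
  rw [mapGL_eq_glOf]
  rfl

theorem slOf_mem_Gamma0 {M : ℕ} {a b c d : ℤ} (h : a * d - b * c = 1) :
    slOf a b c d h ∈ Gamma0 M ↔ (M : ℤ) ∣ c := by
  rw [Gamma0_mem]
  show (((c : ℤ)) : ZMod M) = 0 ↔ _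
  exact ZMod.intCast_zmod_eq_zero_iff_dvd c M

/-- the `SL(2, ℤ)` slash action in terms of `glOf` -/
theorem sl_slash_eq_glOf (k : ℤ) (H : ℍ → ℂ) (γ : SL(2, ℤ)) :
    H ∣[k] γ = H ∣[k] glOf (γ 0 0) (γ 0 1) (γ 1 0) (γ 1 1) := by
  rw [← mapGL_eq_glOf]
  rfl

/-- `Gamma0Inv` is invariance under Mathlib's `Γ₀(M)` -/
theorem gamma0Inv_iff {M : ℕ} {H : ℍ → ℂ} :
    Gamma0Inv (M : ℤ) H ↔ ∀ γ : SL(2, ℤ), γ ∈ Gamma0 M → H ∣[(2 : ℤ)] γ = H := by
  constructor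
  · intro hH γ hγ
    rw [sl_slash_eq_glOf]
    refine hH _ _ _ _ ?_ ?_
    · have := γ.det_coe
      rwa [Matrix.det_fin_two] at this
    · rw [Gamma0_mem] at hγ
      exact (ZMod.intCast_zmod_eq_zero_iff_dvd _ M).mp hγ
  · intro hH a b c d hdet hc
    have := hH (slOf a b c d hdet) ((slOf_mem_Gamma0 hdet).mpr hc)
    rwa [sl_slash_eq_glOf] at this

/-- the underlying function of a weight-two slash-invariant form for `Γ₀(M)` -/
theorem gamma0Inv_of_slashInvariant {M : ℕ} {F : Type*} [FunLike F ℍ ℂ]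
    [SlashInvariantFormClass F (Gamma0 M) 2] (f : F) : Gamma0Inv (M : ℤ) (f : ℍ → ℂ) := by
  rw [gamma0Inv_iff]
  intro γ hγ
  rw [ModularForm.SL_slash]
  exact SlashInvariantFormClass.slash_action_eq f _ (Subgroup.mem_map_of_mem _ hγ)

theorem glOf_eq_heckeMatrix {p : ℕ} (hp : p ≠ 0) (j : ℕ) :
    glOf 1 j 0 p = ModularForm.heckeMatrix p j := by
  have h0 : (1 : ℤ) * p - j * 0 ≠ 0 := by simpa using hp
  apply Matrix.GeneralLinearGroup.ext
  intro i k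
  rw [val_glOf h0, ModularForm.val_heckeMatrix hp]
  fin_cases i <;> fin_cases k <;> simp

theorem glOf_eq_heckeDiagMatrix {p : ℕ} (hp : p ≠ 0) :
    glOf p 0 0 1 = ModularForm.heckeDiagMatrix p := by
  have h0 : (p : ℤ) * 1 - 0 * 0 ≠ 0 := by simpa using hp
  apply Matrix.GeneralLinearGroup.ext
  intro i k
  rw [val_glOf h0, ModularForm.val_heckeDiagMatrix hp]
  fin_cases i <;> fin_cases k <;> simp

/-- **(T2)** in the Prelude's spelling: `U_r (Tr (g ∣ B_r)) = r • g`, where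
`Tr F = ∑_{j < r} F ∣[2] [1 0; N r j 1]` -/
theorem heckeU_trace_raise_eq {r : ℕ} [Fact r.Prime] {N : ℕ} (hrN : ¬ r ∣ N)
    {χ : MulChar (ZMod r) ℂ} (hχ : χ ≠ 1) {g : ℍ → ℂ} (hg : Gamma0Char N r χ g) :
    ModularForm.heckeU 2 r (∑ j ∈ Finset.range r,
      (g ∣[(2 : ℤ)] ModularForm.heckeDiagMatrix r) ∣[(2 : ℤ)]
        glOf 1 0 ((N : ℤ) * (r : ℤ) * (j : ℤ)) 1) = (r : ℂ) • g := by
  have hr : r ≠ 0 := (Fact.out : r.Prime).ne_zero
  rw [ModularForm.heckeU_def, ← raise_trace_lower_range_eq hrN hχ hg]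
  refine Finset.sum_congr rfl fun b _ => ?_
  rw [SlashAction.sum_slash, ← glOf_eq_heckeMatrix hr, ← glOf_eq_heckeDiagMatrix hr]


/-- `Gamma0Inv` for a slash-invariant form of level `Γ₀(N r)`, in the shape used by (T1) -/
theorem gamma0Inv_mul_of_slashInvariant {N r : ℕ} {F : Type*} [FunLike F ℍ ℂ]
    [SlashInvariantFormClass F (Gamma0 (N * r)) 2] (f : F) :
    Gamma0Inv ((N : ℤ) * (r : ℤ)) (f : ℍ → ℂ) := by
  have := gamma0Inv_of_slashInvariant (M := N * r) f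
  rwa [Nat.cast_mul] at this

/-- `Gamma0Char` from a nebentypus statement on `Γ₀(N r)`: `g ∣[2] σ = ψ(σ₁₁) • g` with
`ψ(d) = χ(d mod r)` whenever `d ≡ 1 mod N` -/
theorem gamma0Char_of_nebentypus {N r : ℕ} {χ : MulChar (ZMod r) ℂ} {g : ℍ → ℂ} (ψ : ℤ → ℂ)
    (hg : ∀ σ : SL(2, ℤ), σ ∈ Gamma0 (N * r) → g ∣[(2 : ℤ)] σ = ψ (σ 1 1) • g)
    (hψ : ∀ a d : ℤ, ((N * r : ℕ) : ℤ) ∣ a * d - 1 → (N : ℤ) ∣ d - 1 →
      ψ d = χ ((d : ℤ) : ZMod r)) :
    Gamma0Char N r χ g := by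
  intro a b c d hdet hc hd
  have hc' : ((N * r : ℕ) : ℤ) ∣ c := by rwa [Nat.cast_mul]
  have h1 := hg (slOf a b c d hdet) ((slOf_mem_Gamma0 hdet).mpr hc')
  rw [sl_slash_eq_glOf] at h1
  have h2 : ψ d = χ ((d : ℤ) : ZMod r) := by
    refine hψ a d ?_ hd
    obtain ⟨t, ht⟩ := hc'
    exact ⟨b * t, by rw [← mul_assoc, mul_comm _ b, mul_assoc, ← ht]; linarith⟩
  rw [← h2]
  exact h1

/-- `Gamma0Char` from the nebentypus `changeLevel χ` on `Γ₀(N r)` (the `N`-component of the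
character is trivial) -/
theorem gamma0Char_of_changeLevel {N r : ℕ} {χ : DirichletCharacter ℂ r} {g : ℍ → ℂ}
    (hg : ∀ σ : SL(2, ℤ), σ ∈ Gamma0 (N * r) → g ∣[(2 : ℤ)] σ =
      (DirichletCharacter.changeLevel (Dvd.intro_left N rfl) χ) ((σ 1 1 : ℤ) : ZMod (N * r)) • g) :
    Gamma0Char N r χ g := by
  refine gamma0Char_of_nebentypus
    (fun d => (DirichletCharacter.changeLevel (Dvd.intro_left N rfl) χ) ((d : ℤ) : ZMod (N * r)))
    hg ?_
  intro a d had _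
  have hcop : IsCoprime d ((N * r : ℕ) : ℤ) := by
    obtain ⟨t, ht⟩ := had
    exact ⟨a, -t, by linarith⟩
  show (DirichletCharacter.changeLevel (Dvd.intro_left N rfl) χ) ((d : ℤ) : ZMod (N * r)) = _
  rw [DirichletCharacter.changeLevel_eq_cast_of_dvd' χ (Dvd.intro_left N rfl) hcop]

end Fermat.Agent.GB.B5

end
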