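/-
GATE-B / B5 leaf (B5-S36), CORE (helper41) — twin of helper52's `GB/B7/S35Plus.lean`.

* `s36_noRes` : **the frozen statement S36 WITHOUT its `hres` binder** (and with `𝒪'' = 𝒪'`): the
  geometric proof of S36 (`GL/Final`: `s36GeomGate`, `inv36Gate_of_geom`) never uses `hres`, so we
  re-run `S36Top.s36_of_gates` directly.  [The frozen binder asks `IsOdd` of EVERY residual
  representation with the good characteristic polynomials, i.e. `det ρ̄(c) = -1` for EVERY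
  involution `c ≠ 1` of `G_ℚ`; nothing on main produces that.]
* `not_isUnipotentOnInertiaAt_of_newform` : a GIVEN `ρ : GaloisRepAdic 𝒪'` with the good
  characteristic polynomials of an eigensystem `χ : heckeAlgebra N 2 S →+* 𝒪'` carried by a NEWFORM
  `h` of ANY level `M` (primes of `M` in `S`) with `r² ∥ M`, `r ≠ lam ≠ 2`  ⟹  `ρ` is NOT unipotent
  on the inertia at `r`.
* `not_isUnipotentOnInertiaAt_of_companion` : the same for a normalised eigenform `G` of level `N`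
  all of whose newform companions have `r`-exponent `2` (the output of helper8's
  `Depl.exists_isNewform_factorization_two_of_package`, stated as a hypothesis on ONE companion).
-/
import Mathlib
import Fermat.Agent.GL.Final.S36OfGeom
import Fermat.Agent.GL.Final.S36GeomGateThm
import Fermat.Agent.GB.B7.S35Plus

set_option autoImplicit false

open ModularFormClass CongruenceSubgroup UpperHalfPlane Polynomial CuspForm

namespace Fermat.Agent.GB.B5.S36Plus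

open Fermat.Agent.GB.B7.S35Plus (invOnRange invOnRange_apply)

/-- `ℚ̄`. -/
local notation "Qb" => AlgebraicClosure ℚ
/-- `G_ℚ`. -/
local notation "GQ" => (AlgebraicClosure ℚ ≃ₐ[ℚ] AlgebraicClosure ℚ)

/-- **S36 without the `hres` binder**, `𝒪'' = 𝒪'`. -/
theorem s36_noRes {M : ℕ} [NeZero M] {g : CuspForm (Gamma0 M) 2} (hg : g.IsNewform)
    (lam : ℕ) [Fact lam.Prime] (S : Finset ℕ)
    (O' : Type) [CommRing O'] [IsDomain O'] [IsDiscreteValuationRing O']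
    [IsAdicComplete (IsLocalRing.maximalIdeal O') O'] [Finite (IsLocalRing.ResidueField O')]
    [CharZero O'] (hlamO' : (lam : O') ∈ IsLocalRing.maximalIdeal O')
    (hlam2 : lam ≠ 2)
    (chig : CuspForm.heckeAlgebra M 2 (↑S : Set ℕ) →+* ℂ)
    (hchig : ∀ (ℓ : ℕ) (hℓ : ℓ.Prime) (hℓM : ¬ ℓ ∣ M) (hℓS : ℓ ∉ (↑S : Set ℕ)),
      chig (CuspForm.heckeAlgebra.T hℓ hℓM hℓS) = qCoeff g ℓ)
    (iota : chig.range →+* O')
    (hlamS : lam ∈ S) (hMS : ∀ q : ℕ, q.Prime → q ∣ M → q ∈ S) :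
    ∃ ρ : GaloisRepAdic O',
      (∀ (ℓ : ℕ) (hℓ : ℓ.Prime) (hℓM : ¬ ℓ ∣ M) (hℓS : ℓ ∉ (↑S : Set ℕ)),
        ∀ A : ValuationSubring Qb, A.LiesOverPrime ℓ → ∀ σ : GQ, A.IsFrobeniusAt σ ℓ →
          LinearMap.charpoly (ρ.ρ σ) =
            X ^ 2 - C ((iota.comp chig.rangeRestrict) (CuspForm.heckeAlgebra.T hℓ hℓM hℓS)) * X
              + C ((ℓ : O'))) ∧
      (∀ q : ℕ, q.Prime → q ≠ lam → M.factorization q = 2 → ¬ ρ.IsUnipotentOnInertiaAt q) := by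
  have hfin : Module.Finite ℤ (CuspForm.heckeAlgebra M 2 (↑S : Set ℕ)) :=
    Fermat.Agent.S22.result M 2 (↑S : Set ℕ)
  have hinj : Function.Injective iota :=
    Fermat.Agent.GK.Tate.S35Iota.injective_of_range chig iota
  have hK : Fermat.Agent.GJ.Tate.S31Top.K18sPow :=
    Fermat.Agent.GJ.Tate.S30Final.k18sPow_of_aux Fermat.Agent.GJ.J1.K18sAllFinal.k18sAux
  refine Fermat.Agent.GK.S36.S36Top.s36_of_gates hK lam M S hlamS hMS O' hlamO'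
    (iota.comp chig.rangeRestrict) (fun q hq hqlam hq2 => ?_)
  obtain ⟨N', hN', hN'M, hne, P, hP, C, hC, hgeom⟩ :=
    Fermat.Agent.GL.Final.TripleInstK0.s36GeomGate M lam q hq hqlam hlam2 hq2
  obtain ⟨t, ht, hGt⟩ := Fermat.Agent.GL.Hecke.inv36Gate_of_geom hN'M hne hg lam S chig hchig
    hlamS hMS q P hP C hC hgeom
  refine ⟨t, ?_, hGt⟩
  intro h0
  apply ht
  have h1 : iota (chig.rangeRestrict t) = iota 0 := by rw [map_zero]; exact h0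
  have h2 := congrArg Subtype.val (hinj h1)
  exact h2

section Given

variable {N : ℕ} [NeZero N]

/-- **S36 for a given `ρ`**: the eigensystem `χ` (on the Hecke algebra of a level `N`) is carried by
a newform `h` of ANY level `M` all of whose primes are in `S`, with `r² ∥ M` (`M ∣ N` is NOT
required: in the application `N = N_Q` with `r ∥ N_Q` and `M ∣ N_Q r`). -/
theorem not_isUnipotentOnInertiaAt_of_newform
    (lam : ℕ) [Fact lam.Prime] (hlam2 : lam ≠ 2) (S : Finset ℕ)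
    (O' : Type) [CommRing O'] [IsDomain O'] [IsDiscreteValuationRing O']
    [IsAdicComplete (IsLocalRing.maximalIdeal O') O'] [Finite (IsLocalRing.ResidueField O')]
    [CharZero O'] (hlamO' : (lam : O') ∈ IsLocalRing.maximalIdeal O')
    (hlamS : lam ∈ S) (hNS : ∀ q : ℕ, q.Prime → q ∣ N → q ∈ S)
    (χ : CuspForm.heckeAlgebra N 2 (↑S : Set ℕ) →+* O')
    (ι : χ.range →+* ℂ) (hι : Function.Injective ι)
    {M : ℕ} [NeZero M] (hMS : ∀ q : ℕ, q.Prime → q ∣ M → q ∈ S)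
    {h : CuspForm (Gamma0 M) 2} (hh : h.IsNewform)
    (hhχ : ∀ (ℓ : ℕ) (hℓ : ℓ.Prime) (hℓN : ¬ ℓ ∣ N) (hℓS : ℓ ∉ (↑S : Set ℕ)),
      ι (χ.rangeRestrict (CuspForm.heckeAlgebra.T hℓ hℓN hℓS)) = qCoeff h ℓ)
    (r : ℕ) (hr : r.Prime) (hrlam : r ≠ lam) (hfac : M.factorization r = 2)
    (ρ : GaloisRepAdic O')
    (hρ : ∀ (ℓ : ℕ) (hℓ : ℓ.Prime) (hℓN : ¬ ℓ ∣ N) (hℓS : ℓ ∉ (↑S : Set ℕ)),
      ∀ A : ValuationSubring Qb, A.LiesOverPrime ℓ → ∀ σ : GQ, A.IsFrobeniusAt σ ℓ →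
        LinearMap.charpoly (ρ.ρ σ) =
          X ^ 2 - C (χ (CuspForm.heckeAlgebra.T hℓ hℓN hℓS)) * X + C ((ℓ : O'))) :
    ¬ ρ.IsUnipotentOnInertiaAt r := by
  classical
  set R : Subring ℂ := ι.range with hR
  set e : R →+* O' := invOnRange ι hι with he
  -- good coefficients of `h` lie in `R`, and `e` sends them to `χ (T_ℓ)`
  have hgoodR : ∀ (ℓ : ℕ) (hℓ : ℓ.Prime) (hℓN : ¬ ℓ ∣ N) (hℓS : ℓ ∉ (↑S : Set ℕ)),
      ∃ hm : qCoeff h ℓ ∈ R, e ⟨qCoeff h ℓ, hm⟩ = χ (CuspForm.heckeAlgebra.T hℓ hℓN hℓS) := by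
    intro ℓ hℓ hℓN hℓS
    have h1 : qCoeff h ℓ = ι (χ.rangeRestrict (CuspForm.heckeAlgebra.T hℓ hℓN hℓS)) :=
      (hhχ ℓ hℓ hℓN hℓS).symm
    have hm : qCoeff h ℓ ∈ R := h1 ▸ ⟨_, rfl⟩
    refine ⟨hm, ?_⟩
    have h2 : (⟨qCoeff h ℓ, hm⟩ : R) =
        ⟨ι (χ.rangeRestrict (CuspForm.heckeAlgebra.T hℓ hℓN hℓS)), ⟨_, rfl⟩⟩ := Subtype.ext h1
    rw [h2, he, invOnRange_apply]
    rfl
  set chih : CuspForm.heckeAlgebra M 2 (↑S : Set ℕ) →+* ℂ :=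
    Fermat.Agent.GJ.EigChar.lam hh.1 with hchih
  have hchihT : ∀ (ℓ : ℕ) (hℓ : ℓ.Prime) (hℓM : ¬ ℓ ∣ M) (hℓS : ℓ ∉ (↑S : Set ℕ)),
      chih (CuspForm.heckeAlgebra.T hℓ hℓM hℓS) = qCoeff h ℓ :=
    fun ℓ hℓ hℓM hℓS => Fermat.Agent.GJ.EigChar.lam_T hh.1 hℓ hℓM hℓS
  have hmem : ∀ t, chih t ∈ R := by
    intro t
    refine Fermat.Agent.S54.pi_mem_of_T_mem chih (fun q hq hqM => hMS q hq hqM) R ?_ t
    intro ℓ hℓ hℓM hℓS
    rw [hchihT ℓ hℓ hℓM hℓS]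
    have hℓN : ¬ ℓ ∣ N := fun hd => hℓS (hNS ℓ hℓ hd)
    exact (hgoodR ℓ hℓ hℓN hℓS).1
  have hle : chih.range ≤ R := by
    rintro _ ⟨t, rfl⟩
    exact hmem t
  set iota : chih.range →+* O' := e.comp (Subring.inclusion hle) with hiota
  obtain ⟨ρ', hρ1, hρ2⟩ := s36_noRes hh lam S O' hlamO' hlam2 chih hchihT iota hlamS hMS
  intro huni
  refine hρ2 r hr hrlam hfac ?_
  refine Fermat.Agent.GE.Transfer.isUnipotentOnInertiaAt_of_frobenius ρ' ρ S ?_ r huni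
  intro ℓ hℓ hℓS B hB τ hτ
  have hℓS' : ℓ ∉ (↑S : Set ℕ) := by simpa using hℓS
  have hℓN : ¬ ℓ ∣ N := fun hd => hℓS (hNS ℓ hℓ hd)
  have hℓM : ¬ ℓ ∣ M := fun hd => hℓS (hMS ℓ hℓ hd)
  rw [hρ ℓ hℓ hℓN hℓS' B hB τ hτ, hρ1 ℓ hℓ hℓM hℓS' B hB τ hτ]
  obtain ⟨hm, hem⟩ := hgoodR ℓ hℓ hℓN hℓS'
  have h3 : (iota.comp chih.rangeRestrict) (CuspForm.heckeAlgebra.T hℓ hℓM hℓS') =
      χ (CuspForm.heckeAlgebra.T hℓ hℓN hℓS') := by
    rw [← hem, hiota]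
    show e (Subring.inclusion hle (chih.rangeRestrict _)) = _
    congr 1
    apply Subtype.ext
    exact hchihT ℓ hℓ hℓM hℓS'
  rw [h3]

/-- **S36 for a given `ρ`, eigenform version**: `χ` (on the Hecke algebra of a level `N`) is
carried by a cusp form `G` of ANY level `N_G` all of whose primes are in `S`, which has a newform
companion of level `M ∣ N_G` with `r² ∥ M` (the output of helper8's
`exists_isNewform_factorization_two_of_twist` / `_of_chainD` / `_of_eigenclass`). -/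
theorem not_isUnipotentOnInertiaAt_of_companion
    (lam : ℕ) [Fact lam.Prime] (hlam2 : lam ≠ 2) (S : Finset ℕ)
    (O' : Type) [CommRing O'] [IsDomain O'] [IsDiscreteValuationRing O']
    [IsAdicComplete (IsLocalRing.maximalIdeal O') O'] [Finite (IsLocalRing.ResidueField O')]
    [CharZero O'] (hlamO' : (lam : O') ∈ IsLocalRing.maximalIdeal O')
    (hlamS : lam ∈ S) (hNS : ∀ q : ℕ, q.Prime → q ∣ N → q ∈ S)
    (χ : CuspForm.heckeAlgebra N 2 (↑S : Set ℕ) →+* O')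
    (ι : χ.range →+* ℂ) (hι : Function.Injective ι)
    {NG : ℕ} [NeZero NG] (hNGS : ∀ q : ℕ, q.Prime → q ∣ NG → q ∈ S)
    {G : CuspForm (Gamma0 NG) 2}
    (hGχ : ∀ (ℓ : ℕ) (hℓ : ℓ.Prime) (hℓN : ¬ ℓ ∣ N) (hℓS : ℓ ∉ (↑S : Set ℕ)),
      ι (χ.rangeRestrict (CuspForm.heckeAlgebra.T hℓ hℓN hℓS)) = qCoeff G ℓ)
    (r : ℕ) (hr : r.Prime) (hrlam : r ≠ lam)
    (hcomp : ∃ M : ℕ, M ∣ NG ∧ ∃ h : CuspForm (Gamma0 M) 2, h.IsNewform ∧
      (∀ ℓ : ℕ, ℓ.Prime → ¬ ℓ ∣ NG → qCoeff h ℓ = qCoeff G ℓ) ∧ M.factorization r = 2)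
    (ρ : GaloisRepAdic O')
    (hρ : ∀ (ℓ : ℕ) (hℓ : ℓ.Prime) (hℓN : ¬ ℓ ∣ N) (hℓS : ℓ ∉ (↑S : Set ℕ)),
      ∀ A : ValuationSubring Qb, A.LiesOverPrime ℓ → ∀ σ : GQ, A.IsFrobeniusAt σ ℓ →
        LinearMap.charpoly (ρ.ρ σ) =
          X ^ 2 - C (χ (CuspForm.heckeAlgebra.T hℓ hℓN hℓS)) * X + C ((ℓ : O'))) :
    ¬ ρ.IsUnipotentOnInertiaAt r := by
  obtain ⟨M, hMNG, h, hh, hhG, hfac⟩ := hcomp
  have hM0 : M ≠ 0 := by
    rintro rfl
    exact (NeZero.ne NG) (Nat.eq_zero_of_zero_dvd hMNG)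
  have : NeZero M := ⟨hM0⟩
  exact not_isUnipotentOnInertiaAt_of_newform lam hlam2 S O' hlamO' hlamS hNS χ ι hι
    (fun q hq hqM => hNGS q hq (hqM.trans hMNG)) hh
    (fun ℓ hℓ hℓN hℓS => by
      rw [hGχ ℓ hℓ hℓN hℓS, hhG ℓ hℓ (fun hd => hℓS (hNGS ℓ hℓ hd))]) r hr hrlam hfac ρ hρ

end Given

end Fermat.Agent.GB.B5.S36Plus
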